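import Fermat.Agent.S59.TW.Spec
import Fermat.Agent.S59.H765.NMResWiles
import Fermat.Agent.S59.Arch.WilesLevel

/-!
# Row S59, cell TW, layer 2: lemmas for the assembly `heckeSide_of_leaves` (helper24)

* `levelPairTW`       : `H765.LevelPair N_min N_Q Smin (Smin ∪ Q)`;
* `exists_restriction` : the restriction map `res : T_Q → T_min` of a package whose residual
  character is `θ₀ ∘ oldRestrict`;
* `charpoly_residual_pkg` : the characteristic polynomials of the residual representation of a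
  package are those of `ρ̄`;
* `exists_primitive_root_units` : a primitive root modulo a prime;
* `ker_eq_of_range_eq` : the augmentation submodule of the diamond action in terms of the
  inertia values.
-/

set_option autoImplicit false

open Polynomial IsLocalRing

namespace Fermat.Agent.S59.TW

open Fermat.Agent.S59.Arch Fermat.Agent.S59.TW.H959 Fermat.Agent.S59.H765 CuspForm

/-! ## Levels -/

theorem wilesLevel_dvd_union (p : ℕ) (t : PType) (Smin Q : Finset ℕ) :
    wilesLevel p t Smin Smin ∣ wilesLevel p t Smin (Smin ∪ Q) := by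
  rw [wilesLevel_eq, wilesLevel_eq, Finset.sdiff_self, Finset.prod_empty, mul_one]
  exact Nat.mul_dvd_mul (Dvd.intro _ rfl) dvd_rfl

theorem levelPairTW (p : ℕ) (t : PType) {Smin Q : Finset ℕ}
    (hSminP : ∀ q ∈ Smin, q.Prime) (hQP : ∀ q ∈ Q, q.Prime) (hpS : p ∈ Smin) :
    LevelPair (wilesLevel p t Smin Smin) (wilesLevel p t Smin (Smin ∪ Q))
      (↑Smin : Set ℕ) (↑(Smin ∪ Q) : Set ℕ) where
  dvd := wilesLevel_dvd_union p t Smin Q
  sub := by
    intro x hx
    exact Finset.mem_coe.mpr (Finset.mem_union_left _ (Finset.mem_coe.mp hx))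
  hU := by
    intro ℓ hℓ hd hℓS
    refine absurd (Finset.mem_coe.mpr
      (prime_dvd_wilesLevel p t Finset.subset_union_left ?_ (Finset.mem_union_left _ hpS) hℓ hd))
      hℓS
    intro q hq
    rcases Finset.mem_union.mp hq with h | h
    · exact hSminP q h
    · exact hQP q h

/-! ## The restriction map -/

section Res

variable {p : ℕ}
  {𝒪 : Type} [CommRing 𝒪] [IsDomain 𝒪] [IsDiscreteValuationRing 𝒪]
  [IsAdicComplete (maximalIdeal 𝒪) 𝒪]
  {ρbar : ResidualGaloisRep (ResidueField 𝒪)} {t : PType} {Smin Q : Finset ℕ}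

/-- The restriction map `T_Q → T_min` of a package whose residual character is
`θ₀ ∘ oldRestrict`. -/
theorem exists_restriction
    [NeZero (wilesLevel p t Smin Smin)] [NeZero (wilesLevel p t Smin (Smin ∪ Q))]
    (hp : LevelPair (wilesLevel p t Smin Smin) (wilesLevel p t Smin (Smin ∪ Q))
      (↑Smin : Set ℕ) (↑(Smin ∪ Q) : Set ℕ))
    (P₀ : HeckePkg p 𝒪 ρbar t Smin Smin) (PQ : HeckePkg p 𝒪 ρbar t Smin (Smin ∪ Q))
    (hθ : PQ.θ = P₀.θ.comp (oldRestrict hp)) :
    ∃ res : PQ.T →ₐ[𝒪] P₀.T, IsRestriction P₀ PQ res := by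
  haveI := P₀.integral
  obtain ⟨int, θ, i1, i2, i3, i4, i5, i6, H, hπ, hres, hcond⟩ := PQ
  dsimp only at hθ
  subst hθ
  haveI := int
  refine ⟨resLocal hp 𝒪 P₀.θ, ?_⟩
  intro ℓ hℓ hℓN' hℓS' hℓN hℓS
  show resLocal hp 𝒪 P₀.θ (H.π _) = P₀.H.π _
  rw [hπ, P₀.hπ]
  exact resLocal_T hp 𝒪 P₀.θ hℓ hℓN' hℓS' hℓN hℓS

end Res

/-! ## Residual representations -/

section Residual

variable {k : Type} [Field k]

theorem charpoly_eq_of_residual_isEquiv {ρ₁ ρ₂ : ResidualGaloisRep k} (h : ρ₁.IsEquiv ρ₂)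
    (σ : GQ) : LinearMap.charpoly (ρ₁.ρ σ) = LinearMap.charpoly (ρ₂.ρ σ) := by
  obtain ⟨e⟩ := h
  have h1 : ρ₂.ρ σ = e.toLinearEquiv.conj (ρ₁.ρ σ) := by
    apply LinearMap.ext
    intro y
    rw [LinearEquiv.conj_apply_apply, e.map_apply, LinearEquiv.apply_symm_apply]
  rw [h1, LinearEquiv.charpoly_conj]

theorem charpoly_residual_baseChangeAlong {k' : Type} [Field k'] (ι : k →+* k')
    (ρbar : ResidualGaloisRep k) (σ : GQ) :
    LinearMap.charpoly ((ρbar.baseChangeAlong ι).ρ σ) = (LinearMap.charpoly (ρbar.ρ σ)).map ι := by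
  letI : Algebra k k' := ι.toAlgebra
  show LinearMap.charpoly ((ρbar.ρ σ).baseChange k') = _
  rw [LinearMap.charpoly_baseChange, RingHom.algebraMap_toAlgebra]

theorem isUnramifiedAt_residual_baseChangeAlong {k' : Type} [Field k'] (ι : k →+* k')
    {ρbar : ResidualGaloisRep k} {q : ℕ} (h : ρbar.IsUnramifiedAt q) :
    (ρbar.baseChangeAlong ι).IsUnramifiedAt q := by
  letI : Algebra k k' := ι.toAlgebra
  intro P hP σ hσ
  show (ρbar.ρ σ).baseChange k' = 1
  rw [h P hP σ hσ, LinearMap.baseChange_one]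

theorem isUnramifiedAt_of_residual_isEquiv' {ρ₁ ρ₂ : ResidualGaloisRep k}
    (h : ρ₁.IsEquiv ρ₂) {q : ℕ} (h2 : ρ₂.IsUnramifiedAt q) : ρ₁.IsUnramifiedAt q := by
  obtain ⟨e⟩ := h
  intro P hP σ hσ
  apply LinearMap.ext
  intro y
  have h3 := e.map_apply σ y
  rw [h2 P hP σ hσ, Module.End.one_apply] at h3
  rw [Module.End.one_apply]
  exact e.toLinearEquiv.injective h3

end Residual

/-! ## Primitive roots -/

theorem exists_primitive_root_units {q : ℕ} (hq : q.Prime) :
    ∃ g : (ZMod q)ˣ, orderOf g = q - 1 ∧ ∀ x : (ZMod q)ˣ, x ∈ Subgroup.zpowers g := by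
  haveI : Fact q.Prime := ⟨hq⟩
  obtain ⟨g, hg⟩ := IsCyclic.exists_generator (α := (ZMod q)ˣ)
  refine ⟨g, ?_, hg⟩
  rw [orderOf_eq_card_of_forall_mem_zpowers hg, Nat.card_eq_fintype_card, ZMod.card_units]

/-! ## The augmentation submodule -/

section Ker

variable {T V : Type} [CommRing T] [AddCommGroup V] [Module T V]
  {r : ℕ} {G : Fin r → Type} [∀ j, CommGroup (G j)]

theorem dia_sub_mem_of_gen (dia : (∀ j : Fin r, G j) →* Module.End T V) (g : ∀ j : Fin r, G j)
    (hg : ∀ j, ∀ x : G j, x ∈ Subgroup.zpowers (g j)) (S : Submodule T V)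
    (hS : ∀ (j : Fin r) (y : V), dia (Pi.mulSingle j (g j)) y - y ∈ S)
    (a : ∀ j : Fin r, G j) (y : V) : dia a y - y ∈ S := by
  classical
  -- the subgroup of elements acting trivially modulo `S`
  let K : Subgroup (∀ j : Fin r, G j) :=
    { carrier := {a | ∀ y : V, dia a y - y ∈ S ∧ dia a⁻¹ y - y ∈ S}
      one_mem' := fun y => by
        simp only [inv_one, map_one, Module.End.one_apply, sub_self, S.zero_mem, and_self]
      mul_mem' := fun {a b} ha hb y => by
        constructor
        · have h1 : dia (a * b) y - y = (dia a (dia b y) - dia b y) + (dia b y - y) := by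
            rw [map_mul, Module.End.mul_apply]; abel
          rw [h1]
          exact S.add_mem (ha _).1 (hb _).1
        · have h1 : dia (a * b)⁻¹ y - y =
              (dia a⁻¹ (dia b⁻¹ y) - dia b⁻¹ y) + (dia b⁻¹ y - y) := by
            rw [mul_inv, map_mul, Module.End.mul_apply]; abel
          rw [h1]
          exact S.add_mem (ha _).2 (hb _).2
      inv_mem' := fun {a} ha y => by
        rw [inv_inv]
        exact ⟨(ha y).2, (ha y).1⟩ }
  have hgen : ∀ j, Pi.mulSingle j (g j) ∈ K := by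
    intro j y
    refine ⟨hS j y, ?_⟩
    have h1 : dia (Pi.mulSingle j (g j))⁻¹ y - y =
        - (dia (Pi.mulSingle j (g j)) (dia (Pi.mulSingle j (g j))⁻¹ y) -
          dia (Pi.mulSingle j (g j))⁻¹ y) := by
      rw [← Module.End.mul_apply, ← map_mul, mul_inv_cancel, map_one, Module.End.one_apply]
      abel
    rw [h1]
    exact S.neg_mem (hS j _)
  have hsingle : ∀ j (x : G j), Pi.mulSingle j x ∈ K := by
    intro j x
    obtain ⟨n, rfl⟩ := Subgroup.mem_zpowers_iff.mp (hg j x)
    have h1 : (Pi.mulSingle j (g j ^ n) : ∀ j : Fin r, G j) = Pi.mulSingle j (g j) ^ n :=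
      map_zpow (MonoidHom.mulSingle G j) (g j) n
    rw [h1]
    exact K.zpow_mem (hgen j) n
  have ha : a ∈ K := by
    rw [← Finset.univ_prod_mulSingle a]
    exact K.prod_mem fun j _ => hsingle j (a j)
  exact (ha y).1

theorem ker_eq_of_range_eq (dia : (∀ j : Fin r, G j) →* Module.End T V) (g : ∀ j : Fin r, G j)
    (hg : ∀ j, ∀ x : G j, x ∈ Subgroup.zpowers (g j)) (w : Fin r → T)
    (hrange : ∀ (j : Fin r) (y : V),
      (∃ y' : V, y = w j • y' - y') ↔ ∃ y' : V, y = dia (Pi.mulSingle j (g j)) y' - y')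
    (y : V) :
    y ∈ AddSubgroup.closure {z : V | ∃ (a : ∀ j : Fin r, G j) (y' : V), z = dia a y' - y'} ↔
      y ∈ Ideal.span (Set.range fun i => w i - 1) • (⊤ : Submodule T V) := by
  constructor
  · intro hy
    induction hy using AddSubgroup.closure_induction with
    | mem z hz =>
      obtain ⟨a, y', rfl⟩ := hz
      refine dia_sub_mem_of_gen dia g hg _ ?_ a y'
      intro j y''
      obtain ⟨y₁, hy₁⟩ := (hrange j _).mpr ⟨y'', rfl⟩
      rw [hy₁]
      have h1 : w j • y₁ - y₁ = (w j - 1) • y₁ := by rw [sub_smul, one_smul]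
      rw [h1]
      exact Submodule.smul_mem_smul (Ideal.subset_span ⟨j, rfl⟩) Submodule.mem_top
    | zero => exact Submodule.zero_mem _
    | add a b _ _ ha hb => exact Submodule.add_mem _ ha hb
    | neg a _ ha => exact Submodule.neg_mem _ ha
  · intro hy
    have key : ∀ c ∈ Ideal.span (Set.range fun i => w i - 1), ∀ n : V, c • n ∈
        AddSubgroup.closure {z : V | ∃ (a : ∀ j : Fin r, G j) (y' : V), z = dia a y' - y'} := by
      intro c hc
      refine Submodule.span_induction (p := fun c _ => ∀ n : V, c • n ∈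
        AddSubgroup.closure {z : V | ∃ (a : ∀ j : Fin r, G j) (y' : V), z = dia a y' - y'})
        ?_ ?_ ?_ ?_ hc
      · rintro _ ⟨j, rfl⟩ n
        obtain ⟨y₁, hy₁⟩ := (hrange j _).mp ⟨n, rfl⟩
        have h1 : (w j - 1) • n = w j • n - n := by rw [sub_smul, one_smul]
        rw [h1, hy₁]
        exact AddSubgroup.subset_closure ⟨_, y₁, rfl⟩
      · intro n
        rw [zero_smul]
        exact AddSubgroup.zero_mem _
      · intro a b _ _ ha hb n
        rw [add_smul]
        exact AddSubgroup.add_mem _ (ha n) (hb n)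
      · intro a b _ hb n
        rw [smul_eq_mul, mul_comm, mul_smul]
        exact hb _
    refine Submodule.smul_induction_on hy (fun c hc n _ => key c hc n) ?_
    intro a b ha hb
    exact AddSubgroup.add_mem _ ha hb

end Ker

end Fermat.Agent.S59.TW
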