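import Fermat.Agent.S59.TW.H959.Iface

/-!
# Row S59, cell TW (Taylor–Wiles), LAYER 2: the Hecke side — frozen interface (helper24)

Layer 1 (helper959, `TW/H959/Iface.lean`) reduces `Arch.MinRTStatement` to
`H959.HeckeSideStatement` (+ Galois side + Weierstrass + numerical equality).
Layer 2 (this file) splits `H959.HeckeSideStatement` into independent leaves.
Only sorry-free definitions here; the file is FROZEN once on main.  Board: `coord/S59-TW.md`.

## Leaves (each is a `Prop`; prove `theorem foo : FooStatement`)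

| leaf | Prop | content | kind |
|---|---|---|---|
| PKG   | `PkgStatement`   | the Hecke package `P_Σ` over a given Frobenius character `θ` of level `N_Σ` | G4 + S31–S34 + TW-STRICT + Brauer–Nesbitt |
| RESG  | `ResGalStatement` | a restriction `res : T_Q → T_min` (`T_ℓ ↦ T_ℓ`) is local and `ρ_{T_Q} ⊗_res T_min ≅ ρ_{T_min}` | Chebotarev (on main) + `H307.isEquiv_of_trace_eq` |
| AUT   | `AutStatement`   | the modules `M₀`, `M_Q` (`AutLevel`) with the comparison `AutLevel.Cmp` | MOUNTAIN: M-FREE (on main) + TW-HECKE + TW-CTRL + TW-ES/TWIST + (TW-LGC or TW-ALG) |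
| CMPL  | `CmpOfLgcStatement` | route LGC: `AutLevel.Lgc → AutLevel.Cmp` | pure algebra (`H525.basis_transfer`) + INO |
| INX   | `InertiaExistsStatement` | inertia values exist (Hensel for `X² - tX + d`) | Mathlib + Prelude |
| INO   | `InertiaOrderStatement` | an inertia value at a Taylor–Wiles prime `q` has order dividing the `p`-part of `q - 1`, and `charpoly ρ(σ) = (X - w)(X - w⁻¹)` | Galois side (TW-GAL1) |
| CYC   | `CycloSurjStatement` | inertia at `q` surjects onto `(ℤ/q)^×` | `ℚ(ζ_q)` totally ramified at `q` |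
| ALG   | `AlgStatement`   | basis transfer from the diamond structure to the inertia values + reduction modulo `w^(p^n) - 1` | Mathlib only |

Assembly (file `TW/Asm.lean`, helper24):
`heckeSide_of_leaves : PkgStatement → ResGalStatement → AutStatement → InertiaExistsStatement →
  InertiaOrderStatement → CycloSurjStatement → AlgStatement → H959.HeckeSideStatement`.

## The automorphic module, abstractly (`AutLevel`)

`M_Q = H¹_par(Γ₀(N) ∩ Γ_H(Q), 𝒪)` localised at the maximal ideal of `ρ̄` (anemic; optionally also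
at `U_q - α̃_q`), a module over `T_Q = heckeLocal (N Q²) (Smin ∪ Q)` through the twisted operators
`t_ℓ = ⟨ℓ⟩^{-1/2} T_ℓ`; `dia a` = a diamond operator normalisation on the `p`-Sylow quotient
`Δ_Q` of `∏ (ℤ/q_j)^×` (any normalisation `⟨a⟩^{c}`, `c` prime to `p`, is allowed: only `Cmp`
uses it); `M_Q` is free over `𝒪[Δ_Q]` and `M_Q / I_Δ M_Q ≅ M₀`, semilinearly over `res`.
`M₀` is ANY nonzero `T_min`-module, independent of `Q` (`H¹_par(Γ₀(N), 𝒪)_𝔪` or a power of it).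
-/

set_option autoImplicit false

open Polynomial IsLocalRing

namespace Fermat.Agent.S59.TW

open Fermat.Agent.S59.Arch Fermat.Agent.S59.TW.H959

/-- `σ` acts on the `q`-th roots of unity by `μ ↦ μ ^ a`. -/
def CycloAt (q : ℕ) (σ : GQ) (a : ℕ) : Prop :=
  ∀ μ : Qb, μ ^ q = 1 → σ μ = μ ^ a

section Aut

variable {p : ℕ}
  {𝒪 : Type} [CommRing 𝒪] [IsDomain 𝒪] [IsDiscreteValuationRing 𝒪]
  [IsAdicComplete (maximalIdeal 𝒪) 𝒪]
  {ρbar : ResidualGaloisRep (ResidueField 𝒪)} {t : PType} {Smin : Finset ℕ}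

/-- `res : T_Σ' → T_Σ` is a **restriction map**: it maps `T_ℓ` to `T_ℓ` for all primes `ℓ` which
are good for both levels. -/
def IsRestriction {Sig Sig' : Finset ℕ}
    [NeZero (wilesLevel p t Smin Sig)] [NeZero (wilesLevel p t Smin Sig')]
    (P : HeckePkg p 𝒪 ρbar t Smin Sig) (P' : HeckePkg p 𝒪 ρbar t Smin Sig')
    (res : P'.T →ₐ[𝒪] P.T) : Prop :=
  ∀ (ℓ : ℕ) (hℓ : ℓ.Prime)
    (hℓN' : ¬ ℓ ∣ wilesLevel p t Smin Sig') (hℓS' : ℓ ∉ (↑Sig' : Set ℕ))
    (hℓN : ¬ ℓ ∣ wilesLevel p t Smin Sig) (hℓS : ℓ ∉ (↑Sig : Set ℕ)),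
    res (P'.H.π (CuspForm.heckeAlgebra.T hℓ hℓN' hℓS')) =
      P.H.π (CuspForm.heckeAlgebra.T hℓ hℓN hℓS)

/-- **The automorphic Taylor–Wiles module at the set `Q = qv`**, abstractly (see the header). -/
structure AutLevel [NeZero (wilesLevel p t Smin Smin)] (P₀ : HeckePkg p 𝒪 ρbar t Smin Smin)
    (M₀ : Type) [AddCommGroup M₀] [Module P₀.T M₀] {r : ℕ} (qv : Fin r → ℕ)
    [NeZero (wilesLevel p t Smin (Smin ∪ Finset.univ.image qv))]
    (PQ : HeckePkg p 𝒪 ρbar t Smin (Smin ∪ Finset.univ.image qv))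
    (res : PQ.T →ₐ[𝒪] P₀.T) : Type 1 where
  /-- the module `M_Q` -/
  MQ : Type
  [instAddCommGroup : AddCommGroup MQ]
  [instModule : Module PQ.T MQ]
  /-- the (normalised) diamond operators -/
  dia : (∀ j : Fin r, (ZMod (qv j))ˣ) →* Module.End PQ.T MQ
  /-- the diamond action factors through the `p`-Sylow quotient -/
  dia_pow : ∀ a : ∀ j : Fin r, (ZMod (qv j))ˣ,
    dia (fun j => a j ^ p ^ padicValNat p (qv j - 1)) = 1
  /-- `M_Q` is free of finite rank over `𝒪[Δ_Q]`: for primitive roots `g_j` mod `q_j`, the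
  elements `dia (g^e) b_i`, `0 ≤ e_j < p^{m_j}` (`m_j = v_p(q_j - 1)`), form an `𝒪`-basis. -/
  free : ∀ g : ∀ j : Fin r, (ZMod (qv j))ˣ, (∀ j, orderOf (g j) = qv j - 1) →
    ∃ (d : ℕ) (b : Fin d → MQ), ∀ y : MQ,
      ∃! c : Fin d → (∀ j : Fin r, Fin (p ^ padicValNat p (qv j - 1))) → 𝒪,
        y = ∑ i, ∑ e, algebraMap 𝒪 PQ.T (c i e) • dia (fun j => g j ^ (e j : ℕ)) (b i)
  /-- the projection to the minimal level -/
  π : MQ →+ M₀
  π_smul : ∀ (s : PQ.T) (y : MQ), π (s • y) = res s • π y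
  π_surjective : Function.Surjective π
  /-- the kernel of `π` is the augmentation submodule of the diamond action -/
  ker_π : ∀ y : MQ, π y = 0 ↔
    y ∈ AddSubgroup.closure {z : MQ | ∃ (a : ∀ j : Fin r, (ZMod (qv j))ˣ) (y' : MQ),
      z = dia a y' - y'}

attribute [instance] AutLevel.instAddCommGroup AutLevel.instModule

variable [NeZero (wilesLevel p t Smin Smin)] {P₀ : HeckePkg p 𝒪 ρbar t Smin Smin}
  {M₀ : Type} [AddCommGroup M₀] [Module P₀.T M₀] {r : ℕ} {qv : Fin r → ℕ}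
  [NeZero (wilesLevel p t Smin (Smin ∪ Finset.univ.image qv))]
  {PQ : HeckePkg p 𝒪 ρbar t Smin (Smin ∪ Finset.univ.image qv)}
  {res : PQ.T →ₐ[𝒪] P₀.T}

/-- **The comparison of the Galois and the diamond structure on `M_Q`** (what the patching
consumes).  For a place `P` over `q_j`, a Frobenius `φ` at `P`, `σ` in the inertia group of `P`
acting on `μ_{q_j}` through a PRIMITIVE ROOT `a`, and every inertia value `w ∈ T_Q` of
`ρ_{T_Q}` at `(φ, σ)` (`H959.IsInertiaValue`, any Frobenius eigenvalue `a₀`):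
`(w - 1) M_Q = (dia_j a - 1) M_Q`.

Route LGC: `Lgc` + INO give `(w - X)(w X - 1) = 0` on `M_Q` (`X = dia_j a`), and the
two-structure lemma `H525.basis_transfer` applies (`CmpOfLgcStatement`).
Route TW-ALG (helper314, `coord/S59-TWALG-helper314.md`): from (T) `(w - 1) M_Q ⊆ (X - 1) M_Q` and
(R). -/
def AutLevel.Cmp (A : AutLevel P₀ M₀ qv PQ res) : Prop :=
  ∀ (j : Fin r) (P : ValuationSubring Qb), P.LiesOverPrime (qv j) →
    ∀ φ : GQ, P.IsFrobeniusAt φ (qv j) →
    ∀ σ ∈ P.inertiaSubgroupIn ℚ, ∀ a : (ZMod (qv j))ˣ, orderOf a = qv j - 1 →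
      CycloAt (qv j) σ (a : ZMod (qv j)).val →
      ∀ a₀ w : PQ.T, IsInertiaValue PQ.H.ρ φ σ a₀ w →
        ∀ y : A.MQ, (∃ y' : A.MQ, y = w • y' - y') ↔
          ∃ y' : A.MQ, y = A.dia (Pi.mulSingle j a) y' - y'

/-- **The local–global compatibility at the Taylor–Wiles primes (inertial type only).**
For `σ` in an inertia group at `q_j` acting on `μ_{q_j}` by `a`: the trace of `ρ_{T_Q}(σ)` acts on
`M_Q` as `dia a + dia a⁻¹` (for the normalisation `dia = ⟨·⟩^{-1/2}`: `ρ_f|_{I_q} ≅ 1 ⊕ ε_f` and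
`ρ_{T_Q}` specialises to `ρ_f ⊗ ε_f^{-1/2}`). -/
def AutLevel.Lgc (A : AutLevel P₀ M₀ qv PQ res) : Prop :=
  ∀ (j : Fin r) (P : ValuationSubring Qb), P.LiesOverPrime (qv j) →
    ∀ σ ∈ P.inertiaSubgroupIn ℚ, ∀ a : (ZMod (qv j))ˣ,
      CycloAt (qv j) σ (a : ZMod (qv j)).val →
      ∀ y : A.MQ,
        PQ.H.ρ.trace σ • y = A.dia (Pi.mulSingle j a) y + A.dia (Pi.mulSingle j a⁻¹) y

end Aut

/-! ## The leaves -/

/-- **PKG.**  Under the hypotheses of the minimal case: for every finite set of primes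
`Σ ⊇ Smin` and every Frobenius character `θ` of `ρ̄` on the Hecke algebra of level `N_Σ` away from
`Σ`, the Hecke package of type `Σ` with residual character `θ` exists.
Inputs: S23 (integral structure), `S59.H7` (instances of `heckeLocal`), G4 (`G4.g4_of`: the
datum), S31 (unramified outside `Σ`), S32 / S33 + TW-STRICT (`H649`) (at `p`), S34 (unipotent at
`Smin ∖ {p}`), determinant by Chebotarev, residual equivalence (Brauer–Nesbitt). -/
def PkgStatement : Prop :=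
  ∀ (p : ℕ) [Fact p.Prime]
    (𝒪 : Type) [CommRing 𝒪] [IsDomain 𝒪] [IsDiscreteValuationRing 𝒪]
    [IsAdicComplete (maximalIdeal 𝒪) 𝒪] [Finite (ResidueField 𝒪)] [CharZero 𝒪]
    (ρbar : ResidualGaloisRep (ResidueField 𝒪)) (Smin : Finset ℕ)
    (_h : ResidualHyp p 𝒪 ρbar Smin) (t : PType)
    (_ht : (t = .flat ∧ (GaloisRepAdic.ofResidualGaloisRep ρbar).IsFlatAt p) ∨
      (t = .sord ∧ (GaloisRepAdic.ofResidualGaloisRep ρbar).IsStrictOrdinaryAt p ∧
        ¬ (GaloisRepAdic.ofResidualGaloisRep ρbar).IsFlatAt p))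
    (Sig : Finset ℕ) (_hSig : Smin ⊆ Sig) (_hSigP : ∀ q ∈ Sig, q.Prime)
    [NeZero (wilesLevel p t Smin Sig)]
    (θ : CuspForm.heckeAlgebra (wilesLevel p t Smin Sig) 2 (↑Sig : Set ℕ) →+* ResidueField 𝒪)
    (_hθ : G4.ResFrobCond ρbar θ),
    ∃ P : HeckePkg p 𝒪 ρbar t Smin Sig, P.θ = θ

/-- **RESG.**  A restriction map between two Hecke packages (`Σ ⊆ Σ'`) is a local homomorphism
and is compatible with the Galois representations.
(`tr ρ'(Frob_ℓ) ↦ tr ρ(Frob_ℓ)` for almost all `ℓ`; Chebotarev `Lib.Cheb.chebotarev` + continuity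
`H765.exists_level_trace_sub_mem`; then `H307.isEquiv_of_trace_eq`.) -/
def ResGalStatement : Prop :=
  ∀ (p : ℕ) [Fact p.Prime] (_hp2 : p ≠ 2)
    (𝒪 : Type) [CommRing 𝒪] [IsDomain 𝒪] [IsDiscreteValuationRing 𝒪]
    [IsAdicComplete (maximalIdeal 𝒪) 𝒪] [Finite (ResidueField 𝒪)] [CharZero 𝒪]
    (_hp𝒪 : (p : 𝒪) ∈ maximalIdeal 𝒪)
    (ρbar : ResidualGaloisRep (ResidueField 𝒪)) (_habs : ρbar.IsAbsolutelyIrreducible)
    (t : PType) (Smin Sig Sig' : Finset ℕ) (_hSig : Sig ⊆ Sig')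
    [NeZero (wilesLevel p t Smin Sig)] [NeZero (wilesLevel p t Smin Sig')]
    (P : HeckePkg p 𝒪 ρbar t Smin Sig) (P' : HeckePkg p 𝒪 ρbar t Smin Sig')
    (res : P'.T →ₐ[𝒪] P.T), IsRestriction P P' res →
    ∃ hres : IsLocalHom (res : P'.T →+* P.T),
      (P'.H.ρ.baseChangeAlong (res : P'.T →+* P.T) hres).IsEquiv P.H.ρ

/-- **AUT (the mountain).**  The minimal module `M₀` (nonzero, a `T_min`-module) and, for every
set of Taylor–Wiles primes, every Hecke package `P_Q` at the level `Q` and every restriction map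
`res : T_Q → T_min`, an automorphic Taylor–Wiles module satisfying the comparison `Cmp`.
Cell-internal decomposition (Betti vocabulary): board `coord/S59-TW.md`. -/
def AutStatement : Prop :=
  ∀ (p : ℕ) [Fact p.Prime]
    (𝒪 : Type) [CommRing 𝒪] [IsDomain 𝒪] [IsDiscreteValuationRing 𝒪]
    [IsAdicComplete (maximalIdeal 𝒪) 𝒪] [Finite (ResidueField 𝒪)] [CharZero 𝒪]
    (ρbar : ResidualGaloisRep (ResidueField 𝒪)) (Smin : Finset ℕ)
    (_h : ResidualHyp p 𝒪 ρbar Smin) (t : PType)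
    (_ht : (t = .flat ∧ (GaloisRepAdic.ofResidualGaloisRep ρbar).IsFlatAt p) ∨
      (t = .sord ∧ (GaloisRepAdic.ofResidualGaloisRep ρbar).IsStrictOrdinaryAt p ∧
        ¬ (GaloisRepAdic.ofResidualGaloisRep ρbar).IsFlatAt p))
    [NeZero (wilesLevel p t Smin Smin)]
    (P₀ : HeckePkg p 𝒪 ρbar t Smin Smin),
    ∃ (M₀ : Type) (_ : AddCommGroup M₀) (_ : Module P₀.T M₀) (_ : Nontrivial M₀),
      ∀ (n r : ℕ) (qv : Fin r → ℕ) (_hq : IsTWSet p ρbar Smin n qv)
        [NeZero (wilesLevel p t Smin (Smin ∪ Finset.univ.image qv))]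
        (PQ : HeckePkg p 𝒪 ρbar t Smin (Smin ∪ Finset.univ.image qv))
        (res : PQ.T →ₐ[𝒪] P₀.T) (_hres : IsRestriction P₀ PQ res),
        ∃ A : AutLevel P₀ M₀ qv PQ res, A.Cmp

/-- **INX.**  Inertia values exist: if `ρ̄(φ)` has two distinct eigenvalues `α ≠ β` in the residue
field and `a₀` lifts `α`, then for every `σ` there is `w` with `IsInertiaValue ρ φ σ a₀ w`
(Hensel's lemma for the characteristic polynomial of `ρ(φ)`; `a - b` is a unit). -/
def InertiaExistsStatement : Prop :=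
  ∀ (A : Type) [CommRing A] [IsLocalRing A] [IsNoetherianRing A]
    [IsAdicComplete (maximalIdeal A) A] (ρ : GaloisRepAdic A) (φ σ : GQ) (a₀ : A)
    (β : ResidueField A), residue A a₀ ≠ β →
    LinearMap.charpoly (ρ.residual.ρ φ) = (X - C (residue A a₀)) * (X - C β) →
    ∃ w : A, IsInertiaValue ρ φ σ a₀ w

/-- **INO.**  At a prime `q ≠ p` with `p ∣ q - 1` where the residual representation is
unramified and a Frobenius has distinct eigenvalues, for a representation with cyclotomic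
determinant over a complete Noetherian local ring with finite residue field of characteristic
`p`: every inertia value `w` at `(φ, σ)`, `σ` in the inertia group, is a root of
`charpoly ρ(σ) = (X - w)(X - w')` with `w w' = 1`, of order dividing the `p`-part of `q - 1`.
(TW-GAL1: `ρ|_{G_q} = ξ ⊕ ξ'`, `w = ξ(σ)`, `ξ ξ' = ε_p` is unramified, `ξ|_{I_q}` factors through
the tame quotient, on which Frobenius acts by `q`, and has pro-`p` image.) -/
def InertiaOrderStatement : Prop :=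
  ∀ (p : ℕ) [Fact p.Prime] (A : Type) [CommRing A] [IsLocalRing A] [IsNoetherianRing A]
    [IsAdicComplete (maximalIdeal A) A] [Finite (ResidueField A)]
    (_hpA : (p : A) ∈ maximalIdeal A)
    (ρ : GaloisRepAdic A) (_hdet : ρ.DetIsCyclotomic p)
    (q : ℕ) (_hq : q.Prime) (_hqp : q ≠ p) (_hpq : p ∣ q - 1)
    (_hunr : ρ.residual.IsUnramifiedAt q)
    (P : ValuationSubring Qb) (_hP : P.LiesOverPrime q) (φ : GQ) (_hφ : P.IsFrobeniusAt φ q)
    (σ : GQ) (_hσ : σ ∈ P.inertiaSubgroupIn ℚ) (a₀ w : A), IsInertiaValue ρ φ σ a₀ w →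
    ∃ w' : A, w * w' = 1 ∧ w ^ (p ^ padicValNat p (q - 1)) = 1 ∧
      LinearMap.charpoly (ρ.ρ σ) = (X - C w) * (X - C w')

/-- **CYC.**  The inertia group at `q` surjects onto `(ℤ/q)^×` (`ℚ(ζ_q)/ℚ` is totally ramified
at `q`). -/
def CycloSurjStatement : Prop :=
  ∀ (q : ℕ), q.Prime → ∀ P : ValuationSubring Qb, P.LiesOverPrime q →
    ∀ a : (ZMod q)ˣ, ∃ σ ∈ P.inertiaSubgroupIn ℚ, CycloAt q σ (a : ZMod q).val

/-- **ALG (Mathlib only).**  Basis transfer and reduction.  `V` a module over an `𝒪`-algebra `T`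
(`p` odd, `p ∈ Jac 𝒪`, `𝒪` a domain of characteristic `0`), `dia : ∏ G_j → Aut_T V` a
representation of a product of commutative groups, `g_j ∈ G_j` with `dia (g_j)^(p^(m_j)) = 1`
such that the `dia (g^e) b_i` (`e_j < p^(m_j)`) form an `𝒪`-basis of `V`; `w_j ∈ T` with
`w_j^(p^(m_j)) = 1` and `(w_j - 1) V = (dia g_j - 1) V`; `n ≤ m_j`.
Then `V / (w_j^(p^n) - 1)` is free over `𝒪[(ℤ/p^n)^r]` through the `w_j` with basis `b`
(`H959.IsGroupRingBasis`).
(Nakayama as in `H525.basis_transfer`: the `w^e b_i` span `V`, count ranks; then fold the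
exponents modulo `p^n`.) -/
def AlgStatement : Prop :=
  ∀ (p : ℕ) (_hp : p.Prime) (_hp2 : p ≠ 2) (𝒪 : Type) [CommRing 𝒪] [IsDomain 𝒪] [CharZero 𝒪]
    (_hpJ : (p : 𝒪) ∈ Ideal.jacobson (⊥ : Ideal 𝒪))
    (T : Type) [CommRing T] [Algebra 𝒪 T] (V : Type) [AddCommGroup V] [Module T V]
    (r : ℕ) (G : Fin r → Type) [∀ j, CommGroup (G j)] (m : Fin r → ℕ) (n : ℕ)
    (_hn : ∀ j, n ≤ m j)
    (dia : (∀ j : Fin r, G j) →* Module.End T V) (g : ∀ j : Fin r, G j)
    (_hX : ∀ j, dia (Pi.mulSingle j (g j)) ^ (p ^ m j) = 1)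
    (d : ℕ) (b : Fin d → V)
    (_hb : ∀ y : V, ∃! c : Fin d → (∀ j : Fin r, Fin (p ^ m j)) → 𝒪,
      y = ∑ i, ∑ e, algebraMap 𝒪 T (c i e) • dia (fun j => g j ^ (e j : ℕ)) (b i))
    (w : Fin r → T) (_hw : ∀ j, w j ^ (p ^ m j) = 1)
    (_hrange : ∀ (j : Fin r) (y : V),
      (∃ y' : V, y = w j • y' - y') ↔ ∃ y' : V, y = dia (Pi.mulSingle j (g j)) y' - y'),
    IsGroupRingBasis 𝒪 (p ^ n) w b

/-- **CMPL (route LGC; pure algebra).**  `p` odd: the local–global compatibility `Lgc` implies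
the comparison `Cmp`, given INO.  (`H525.basis_transfer`.) -/
def CmpOfLgcStatement : Prop :=
  InertiaOrderStatement →
  ∀ (p : ℕ) [Fact p.Prime] (_hp2 : p ≠ 2)
    (𝒪 : Type) [CommRing 𝒪] [IsDomain 𝒪] [IsDiscreteValuationRing 𝒪]
    [IsAdicComplete (maximalIdeal 𝒪) 𝒪] [Finite (ResidueField 𝒪)] [CharZero 𝒪]
    (ρbar : ResidualGaloisRep (ResidueField 𝒪)) (Smin : Finset ℕ)
    (_h : ResidualHyp p 𝒪 ρbar Smin) (t : PType)
    [NeZero (wilesLevel p t Smin Smin)]
    (P₀ : HeckePkg p 𝒪 ρbar t Smin Smin)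
    (M₀ : Type) [AddCommGroup M₀] [Module P₀.T M₀]
    (n r : ℕ) (qv : Fin r → ℕ) (_hq : IsTWSet p ρbar Smin n qv)
    [NeZero (wilesLevel p t Smin (Smin ∪ Finset.univ.image qv))]
    (PQ : HeckePkg p 𝒪 ρbar t Smin (Smin ∪ Finset.univ.image qv))
    (res : PQ.T →ₐ[𝒪] P₀.T)
    (A : AutLevel P₀ M₀ qv PQ res), A.Lgc → A.Cmp

end Fermat.Agent.S59.TW
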