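import Fermat.Agent.S59.TW.AsmLemmas

/-!
# Row S59, cell TW, layer 2: the core of the assembly (helper24)

`hasTWModule_of_leaves` : the Taylor–Wiles module `H959.HasTWModule P₀ M₀ n qv` at ONE
Taylor–Wiles set from the leaves RESG, INX, INO, CYC, ALG, for a GIVEN minimal package `P₀` and a
GIVEN module `M₀`, the package `P_Q` (over the residual character `θ₀ ∘ oldRestrict`) and the
automorphic module with its comparison (`AutLevel`, `AutLevel.Cmp`) being hypotheses.
Every form of the Hecke side (`HeckeSideStatement`, its module forms) follows by wrapping.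
-/

set_option autoImplicit false

open Polynomial IsLocalRing

namespace Fermat.Agent.S59.TW

open Fermat.Agent.S59.Arch Fermat.Agent.S59.TW.H959 Fermat.Agent.S59.H765 CuspForm

/-- **The Taylor–Wiles module at one Taylor–Wiles set**, from the leaves: given the minimal
package `P₀`, the module `M₀`, the package `P_Q` over the residual character
`θ₀ ∘ oldRestrict`, and the automorphic module with its comparison for every restriction map. -/
theorem hasTWModule_of_leaves (hRes : ResGalStatement)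
    (hInx : InertiaExistsStatement) (hIno : InertiaOrderStatement)
    (hCyc : CycloSurjStatement) (hAlg : AlgStatement)
    {p : ℕ} [hpF : Fact p.Prime]
    {𝒪 : Type} [CommRing 𝒪] [IsDomain 𝒪] [IsDiscreteValuationRing 𝒪]
    [IsAdicComplete (maximalIdeal 𝒪) 𝒪] [Finite (ResidueField 𝒪)] [CharZero 𝒪]
    {ρbar : ResidualGaloisRep (ResidueField 𝒪)} {Smin : Finset ℕ}
    (h : ResidualHyp p 𝒪 ρbar Smin) {t : PType}
    [NeZero (wilesLevel p t Smin Smin)]
    (P₀ : HeckePkg p 𝒪 ρbar t Smin Smin)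
    (M₀ : Type) [AddCommGroup M₀] [Module P₀.T M₀]
    {n r : ℕ} {qv : Fin r → ℕ} (hq : IsTWSet p ρbar Smin n qv)
    (hPkg : ∀ [NeZero (wilesLevel p t Smin (Smin ∪ Finset.univ.image qv))]
      (θ : heckeAlgebra (wilesLevel p t Smin (Smin ∪ Finset.univ.image qv)) 2
        (↑(Smin ∪ Finset.univ.image qv) : Set ℕ) →+* ResidueField 𝒪),
      G4.ResFrobCond ρbar θ →
      ∃ P : HeckePkg p 𝒪 ρbar t Smin (Smin ∪ Finset.univ.image qv), P.θ = θ)
    (hθ₀ : G4.ResFrobCond ρbar P₀.θ)
    (hA : ∀ [NeZero (wilesLevel p t Smin (Smin ∪ Finset.univ.image qv))]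
      (PQ : HeckePkg p 𝒪 ρbar t Smin (Smin ∪ Finset.univ.image qv))
      (res : PQ.T →ₐ[𝒪] P₀.T) (_hres : IsRestriction P₀ PQ res),
      ∃ A : AutLevel P₀ M₀ qv PQ res, A.Cmp) :
    HasTWModule P₀ M₀ n qv := by
  obtain ⟨-, hqv, hfrob⟩ := id hq
  -- the level `Q`
  have hQP : ∀ q ∈ Finset.univ.image qv, q.Prime := by
    intro q hq'
    obtain ⟨j, -, rfl⟩ := Finset.mem_image.mp hq'
    exact (hqv j).1
  have hSigP : ∀ q ∈ Smin ∪ Finset.univ.image qv, q.Prime := by
    intro q hq'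
    rcases Finset.mem_union.mp hq' with h' | h'
    · exact h.hSmin q h'
    · exact hQP q h'
  have hNQ : NeZero (wilesLevel p t Smin (Smin ∪ Finset.univ.image qv)) :=
    ⟨wilesLevel_ne_zero hpF.out h.hSmin hSigP⟩
  have hp := levelPairTW p t h.hSmin hQP h.hpSmin
  have hθQ : G4.ResFrobCond ρbar (P₀.θ.comp (oldRestrict hp)) := resFrobCond_comp hp hθ₀
  obtain ⟨PQ, hθPQ⟩ := hPkg (P₀.θ.comp (oldRestrict hp)) hθQ
  obtain ⟨res, hIsRes⟩ := exists_restriction hp P₀ PQ hθPQ
  obtain ⟨hloc, hequiv⟩ := hRes p h.hp2 𝒪 h.hp𝒪 ρbar h.habs t Smin Smin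
    (Smin ∪ Finset.univ.image qv) Finset.subset_union_left P₀ PQ res hIsRes
  obtain ⟨A, hCmp⟩ := hA PQ res hIsRes
  -- primitive roots, places, Frobenius and inertia elements, eigenvalues
  choose g hgord hggen using fun j => exists_primitive_root_units (hqv j).1
  choose Pv φv hPv hφv using fun j => Fermat.Agent.S54.exists_frobenius (qv j) (hqv j).1
  choose σv hσv hcyc using fun j => hCyc (qv j) (hqv j).1 (Pv j) (hPv j) (g j)
  choose α β hαβ hchar using fun j => hfrob j (Pv j) (hPv j) (φv j) (hφv j)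
  choose αv hαv using fun j => residue_surjective (α j)
  -- inertia values
  have hcharT : ∀ j, LinearMap.charpoly (PQ.H.ρ.residual.ρ (φv j)) =
      (X - C (residue PQ.T (algebraMap 𝒪 PQ.T (αv j)))) *
        (X - C (ResidueField.map (algebraMap 𝒪 PQ.T) (β j))) := by
    intro j
    rw [charpoly_eq_of_residual_isEquiv PQ.hres, charpoly_residual_baseChangeAlong, hchar j,
      Polynomial.map_mul, Polynomial.map_sub, Polynomial.map_sub, Polynomial.map_X,
      Polynomial.map_C, Polynomial.map_C, ← hαv j, ResidueField.map_residue]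
  have hne : ∀ j, residue PQ.T (algebraMap 𝒪 PQ.T (αv j)) ≠
      ResidueField.map (algebraMap 𝒪 PQ.T) (β j) := by
    intro j hj
    rw [← ResidueField.map_residue, hαv j] at hj
    exact hαβ j ((ResidueField.map (algebraMap 𝒪 PQ.T)).injective hj)
  choose w hw using fun j => hInx PQ.T PQ.H.ρ (φv j) (σv j) (algebraMap 𝒪 PQ.T (αv j))
    (ResidueField.map (algebraMap 𝒪 PQ.T) (β j)) (hne j) (hcharT j)
  -- the order of the inertia values
  haveI : Finite (ResidueField PQ.T) := by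
    refine Finite.of_surjective (ResidueField.map (algebraMap 𝒪 PQ.T)) ?_
    intro x
    obtain ⟨y, hy⟩ := PQ.H.residue_surjective x
    exact ⟨residue 𝒪 y, by rw [ResidueField.map_residue]; exact hy⟩
  have hpT : (p : PQ.T) ∈ maximalIdeal PQ.T := by
    have h1 := h.hp𝒪
    rw [mem_maximalIdeal, mem_nonunits_iff] at h1 ⊢
    intro hu
    apply h1
    have : IsUnit (algebraMap 𝒪 PQ.T (p : 𝒪)) := by rwa [map_natCast]
    exact IsLocalHom.map_nonunit _ this
  have hdet : PQ.H.ρ.DetIsCyclotomic p := by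
    have h1 := PQ.hcond.1
    cases t
    · exact h1.1
    · exact h1.1
    · exact h1.1
  have hqp : ∀ j, qv j ≠ p := by
    intro j hj
    exact (hqv j).2.1 (hj ▸ h.hpSmin)
  have hunr : ∀ j, PQ.H.ρ.residual.IsUnramifiedAt (qv j) := by
    intro j
    refine isUnramifiedAt_of_residual_isEquiv' PQ.hres
      (isUnramifiedAt_residual_baseChangeAlong _ ?_)
    by_contra hcon
    exact (hqv j).2.1 ((h.hmin (qv j) (hqv j).1 (hqp j)).mpr hcon)
  have hpq : ∀ j, p ∣ qv j - 1 := fun j =>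
    Dvd.dvd.trans (dvd_pow_self p (Nat.succ_ne_zero n)) (hqv j).2.2
  have hord : ∀ j, w j ^ (p ^ padicValNat p (qv j - 1)) = 1 := by
    intro j
    obtain ⟨w', -, h2, -⟩ := hIno p PQ.T hpT PQ.H.ρ hdet (qv j) (hqv j).1 (hqp j) (hpq j)
      (hunr j) (Pv j) (hPv j) (φv j) (hφv j) (σv j) (hσv j) _ (w j) (hw j)
    exact h2
  -- the comparison
  have hrange : ∀ (j : Fin r) (y : A.MQ),
      (∃ y' : A.MQ, y = w j • y' - y') ↔ ∃ y' : A.MQ, y = A.dia (Pi.mulSingle j (g j)) y' - y' :=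
    fun j => hCmp j (Pv j) (hPv j) (φv j) (hφv j) (σv j) (hσv j) (g j) (hgord j) (hcyc j) _
      (w j) (hw j)
  -- the basis
  have hn : ∀ j, n ≤ padicValNat p (qv j - 1) := by
    intro j
    have h0 : qv j - 1 ≠ 0 := Nat.sub_ne_zero_of_lt (hqv j).1.one_lt
    exact (Nat.le_succ n).trans ((padicValNat_dvd_iff_le h0).mp (hqv j).2.2)
  have hX : ∀ j, A.dia (Pi.mulSingle j (g j)) ^ (p ^ padicValNat p (qv j - 1)) = 1 := by
    intro j
    rw [← map_pow, ← A.dia_pow (Pi.mulSingle j (g j))]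
    congr 1
    funext i
    by_cases hij : i = j
    · subst hij
      simp only [Pi.pow_apply, Pi.mulSingle_eq_same]
    · simp only [Pi.pow_apply, Pi.mulSingle_eq_of_ne hij, one_pow]
  have hpJ : (p : 𝒪) ∈ Ideal.jacobson (⊥ : Ideal 𝒪) := by
    rw [IsLocalRing.jacobson_eq_maximalIdeal ⊥ bot_ne_top]
    exact h.hp𝒪
  obtain ⟨d, b, hb⟩ := A.free g hgord
  have hgrb : IsGroupRingBasis 𝒪 (p ^ n) w b :=
    hAlg p hpF.out h.hp2 𝒪 hpJ PQ.T A.MQ r (fun j => (ZMod (qv j))ˣ)
      (fun j => padicValNat p (qv j - 1)) n hn A.dia g hX d b hb w hord hrange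
  -- the kernel
  have hker : ∀ x : A.MQ, A.π x = 0 ↔
      x ∈ Ideal.span (Set.range fun i => w i - 1) • (⊤ : Submodule PQ.T A.MQ) :=
    fun x => (A.ker_π x).trans (ker_eq_of_range_eq A.dia g hggen w hrange x)
  exact ⟨hNQ, PQ, res, hloc, A.MQ, inferInstance, inferInstance, A.π, Pv, φv, σv, αv, w, d, b,
    hequiv, A.π_smul, A.π_surjective, hker, fun i => ⟨hPv i, hφv i, hσv i, hw i⟩, hgrb⟩

end Fermat.Agent.S59.TW
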