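import Fermat.Agent.S59.TW.AsmCore
import Fermat.Agent.S59.TW.H765.ResGal
import Fermat.Agent.S59.TW.H427.InertiaExists
import Fermat.Agent.S59.TW.H123.InertiaOrder
import Fermat.Agent.S59.TW.H59.CycloSurj

/-!
# Row S59, cell TW, layer 2: the core of the assembly with the closed leaves wired (helper24)

RESG (`TW.H765.resGal`), INX (`TW.H427.inertiaExists`), INO (`TW.H123.inertiaOrder`) and CYC
(`TW.H59.cycloSurj`) are on main.  What remains of `H959.HasTWModule P₀ M₀ n qv`: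

* ALG (`AlgStatement`, Mathlib only),
* the package `P_Q` over the residual character `θ₀ ∘ oldRestrict` (PKG),
* the automorphic module `AutLevel P₀ M₀ qv PQ res` with `AutLevel.Cmp` (AUT).
-/

set_option autoImplicit false

open Polynomial IsLocalRing

namespace Fermat.Agent.S59.TW

open Fermat.Agent.S59.Arch Fermat.Agent.S59.TW.H959 CuspForm

/-- **The Taylor–Wiles module at one Taylor–Wiles set** from ALG, PKG (at the level `Q`) and AUT
(at the set `Q`). -/
theorem hasTWModule_of (hAlg : AlgStatement)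
    {p : ℕ} [Fact p.Prime]
    {𝒪 : Type} [CommRing 𝒪] [IsDomain 𝒪] [IsDiscreteValuationRing 𝒪]
    [IsAdicComplete (maximalIdeal 𝒪) 𝒪] [Finite (ResidueField 𝒪)] [CharZero 𝒪]
    {ρbar : ResidualGaloisRep (ResidueField 𝒪)} {Smin : Finset ℕ}
    (h : ResidualHyp p 𝒪 ρbar Smin) {t : PType}
    [NeZero (wilesLevel p t Smin Smin)]
    (P₀ : HeckePkg p 𝒪 ρbar t Smin Smin)
    (M₀ : Type) [AddCommGroup M₀] [Module P₀.T M₀]
    {n r : ℕ} {qv : Fin r → ℕ} (hq : IsTWSet p ρbar Smin n qv)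
    (hPkg : ∀ [NeZero (wilesLevel p t Smin (Smin ∪ Finset.univ.image qv))]
      (θ : heckeAlgebra (wilesLevel p t Smin (Smin ∪ Finset.univ.image qv)) 2
        (↑(Smin ∪ Finset.univ.image qv) : Set ℕ) →+* ResidueField 𝒪),
      G4.ResFrobCond ρbar θ →
      ∃ P : HeckePkg p 𝒪 ρbar t Smin (Smin ∪ Finset.univ.image qv), P.θ = θ)
    (hθ₀ : G4.ResFrobCond ρbar P₀.θ)
    (hA : ∀ [NeZero (wilesLevel p t Smin (Smin ∪ Finset.univ.image qv))]
      (PQ : HeckePkg p 𝒪 ρbar t Smin (Smin ∪ Finset.univ.image qv))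
      (res : PQ.T →ₐ[𝒪] P₀.T) (_hres : IsRestriction P₀ PQ res),
      ∃ A : AutLevel P₀ M₀ qv PQ res, A.Cmp) :
    HasTWModule P₀ M₀ n qv :=
  hasTWModule_of_leaves H765.resGal H427.inertiaExists H123.inertiaOrder H59.cycloSurj hAlg
    h P₀ M₀ hq hPkg hθ₀ hA

end Fermat.Agent.S59.TW
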