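import Fermat.Agent.S59.TW.SpecPlus
import Fermat.Agent.S59.TW.WireCore
import Fermat.Agent.S59.TW.H95.Alg

/-!
# Row S59, cell TW, layer 2, `Plus` form: the assembly (helper24)

* `heckeSidePlus_of_leaves : PkgPlusStatement → ResGalStatement → AutPlusStatement →
  InertiaExistsStatement → InertiaOrderStatement → CycloSurjStatement → AlgStatement →
  Arch.HeckeSidePlusStatement`;
* `heckeSidePlus_of : PkgPlusStatement → AutPlusStatement → Arch.HeckeSidePlusStatement`
  (RESG, INX, INO, CYC, ALG are closed on main and wired).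

So the Hecke side of the cell TW is reduced to PKG (package at the levels `Smin ∪ Q`; ⇐ rows
S31–S34 + TW-STRICT) and AUT-PLUS (layer 3, `TW/Aut/`).
-/

set_option autoImplicit false

open Polynomial IsLocalRing

namespace Fermat.Agent.S59.TW

open Fermat.Agent.S59.Arch Fermat.Agent.S59.TW.H959 Fermat.Agent.S59.NM CuspForm

/-- **Layer 2 of the cell TW, `Plus` form.** -/
theorem heckeSidePlus_of_leaves (hPkg : PkgPlusStatement) (hRes : ResGalStatement)
    (hAut : AutPlusStatement) (hInx : InertiaExistsStatement) (hIno : InertiaOrderStatement)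
    (hCyc : CycloSurjStatement) (hAlg : AlgStatement) : HeckeSidePlusStatement := by
  intro p hpF 𝒪 _ _ _ _ _ _ ρbar Smin h hc t ht hN χ hχ
  haveI := hN
  obtain ⟨P₀, hθ₀⟩ := hPkg p 𝒪 ρbar Smin h hc t ht Smin (Finset.Subset.refl _) h.hSmin
    ((residue 𝒪).comp χ) hχ
  obtain ⟨pt, hpt⟩ := P₀.H.exists_point χ (fun x => by rw [hθ₀]; rfl)
  have hpt' : ∀ x : heckeAlgebra (wilesLevel p t Smin Smin) 2 (↑Smin : Set ℕ),
      pt (heckeLocal.π (wilesLevel p t Smin Smin) (↑Smin : Set ℕ) 𝒪 P₀.θ x) = χ x := by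
    intro x
    rw [← P₀.hπ]
    exact hpt x
  obtain ⟨M₀, i1, i2, i3, hbridge, hA⟩ := hAut p 𝒪 ρbar Smin h hc t ht P₀ χ hχ hθ₀ pt hpt'
  refine ⟨P₀, pt, M₀, i1, i2, i3, ?_, hbridge, ?_⟩
  · intro l hl hlN hlS
    rw [hpt', eig_eq χ hl hlN hlS]
  intro n r qv hq
  have hSigP : ∀ q ∈ Smin ∪ Finset.univ.image qv, q.Prime := by
    intro q hq'
    rcases Finset.mem_union.mp hq' with h' | h'
    · exact h.hSmin q h'
    · obtain ⟨j, -, rfl⟩ := Finset.mem_image.mp h'
      exact (hq.2.1 j).1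
  exact hasTWModule_of_leaves hRes hInx hIno hCyc hAlg h P₀ M₀ hq
    (fun θ hθ => hPkg p 𝒪 ρbar Smin h hc t ht _ Finset.subset_union_left hSigP θ hθ)
    (by rw [hθ₀]; exact hχ)
    (fun PQ res hres => hA n r qv hq PQ res hres)

/-- **Layer 2 of the cell TW, `Plus` form, closed leaves wired**: the Hecke side follows from
PKG and AUT-PLUS. -/
theorem heckeSidePlus_of (hPkg : PkgPlusStatement) (hAut : AutPlusStatement) :
    HeckeSidePlusStatement :=
  heckeSidePlus_of_leaves hPkg H765.resGal hAut H427.inertiaExists H123.inertiaOrder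
    H59.cycloSurj H95.alg

end Fermat.Agent.S59.TW
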