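import Fermat.Agent.S59.TW.Spec
import Fermat.Agent.S59.Arch.PlusPkg

/-!
# Row S59, cell TW, LAYER 2, `Plus` form — frozen interface (helper24)

Architect's ruling v5 (`coord/S59.md` §00, §1): the target of the cell TW is
`Arch.MinRTPlusHStatement`; Layer 1 (helper959) reduces it to `Arch.HeckeSidePlusStatement`
(`Arch/PlusPkg.lean`) = `H959.HeckeSideStatement` under the extra hypothesis `Arch.CurveCase`,
with the two bridge clauses

* (a) the point `pt` of `T_min` has the eigenvalues of `χ`;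
* (b) `(∃ d b, Bijective (Fintype.linearCombination T_min b)) →
        NC.congIdeal pt = NM.cohCong N_min Smin (NM.eig χ)`.

Layer 2, `Plus` form:

* `PkgPlusStatement` = `PkgStatement` under the extra hypothesis `CurveCase`
  (`pkgPlus_of_pkg : PkgStatement → PkgPlusStatement`);
* `AutPlusStatement` = `AutStatement` under the extra hypothesis `CurveCase`, for a package `P₀`
  over `θ = χ mod 𝔪` and THE point `pt` of `T_min` given by `χ`, with the bridge clause (b) on `M₀`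
  (for `M₀ = e·H¹_par(Γ₀(N_min), 𝒪)`: Manin pairing + `NM.BaseStatement`);
* the other leaves (`ResGalStatement`, `InertiaExistsStatement`, `InertiaOrderStatement`,
  `CycloSurjStatement`, `AlgStatement`) are unchanged (all CLOSED on main).

Assembly (`TW/AsmPlus.lean`): `heckeSidePlus_of_leaves`, `heckeSidePlus_of`.
-/

set_option autoImplicit false

open Polynomial IsLocalRing

namespace Fermat.Agent.S59.TW

open Fermat.Agent.S59.Arch Fermat.Agent.S59.TW.H959 Fermat.Agent.S59.NM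

/-- **PKG under `CurveCase`.** -/
def PkgPlusStatement : Prop :=
  ∀ (p : ℕ) [Fact p.Prime]
    (𝒪 : Type) [CommRing 𝒪] [IsDomain 𝒪] [IsDiscreteValuationRing 𝒪]
    [IsAdicComplete (maximalIdeal 𝒪) 𝒪] [Finite (ResidueField 𝒪)] [CharZero 𝒪]
    (ρbar : ResidualGaloisRep (ResidueField 𝒪)) (Smin : Finset ℕ)
    (_h : ResidualHyp p 𝒪 ρbar Smin) (_hc : CurveCase p ρbar) (t : PType)
    (_ht : (t = .flat ∧ (GaloisRepAdic.ofResidualGaloisRep ρbar).IsFlatAt p) ∨
      (t = .sord ∧ (GaloisRepAdic.ofResidualGaloisRep ρbar).IsStrictOrdinaryAt p ∧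
        ¬ (GaloisRepAdic.ofResidualGaloisRep ρbar).IsFlatAt p))
    (Sig : Finset ℕ) (_hSig : Smin ⊆ Sig) (_hSigP : ∀ q ∈ Sig, q.Prime)
    [NeZero (wilesLevel p t Smin Sig)]
    (θ : CuspForm.heckeAlgebra (wilesLevel p t Smin Sig) 2 (↑Sig : Set ℕ) →+* ResidueField 𝒪)
    (_hθ : G4.ResFrobCond ρbar θ),
    ∃ P : HeckePkg p 𝒪 ρbar t Smin Sig, P.θ = θ

theorem pkgPlus_of_pkg (h : PkgStatement) : PkgPlusStatement :=
  fun p _ 𝒪 _ _ _ _ _ _ ρbar Smin hR _ t ht Sig hSig hSigP _ θ hθ =>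
    h p 𝒪 ρbar Smin hR t ht Sig hSig hSigP θ hθ

/-- **AUT, `Plus` form (the mountain).**  As `AutStatement`, under the extra hypothesis
`CurveCase`, for an eigensystem `χ` of the minimal level lifting the residual character of the
package `P₀` and the point `pt` of `T_min` defined by `χ`; with the bridge clause: if `M₀` has a
finite basis over `T_min` then `η_{T_min}(pt) = δ₀(χ)`, the ideal of the values of the Manin
pairing on the `χ`-eigenclasses of level `N_min`. -/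
def AutPlusStatement : Prop :=
  ∀ (p : ℕ) [Fact p.Prime]
    (𝒪 : Type) [CommRing 𝒪] [IsDomain 𝒪] [IsDiscreteValuationRing 𝒪]
    [IsAdicComplete (maximalIdeal 𝒪) 𝒪] [Finite (ResidueField 𝒪)] [CharZero 𝒪]
    (ρbar : ResidualGaloisRep (ResidueField 𝒪)) (Smin : Finset ℕ)
    (_h : ResidualHyp p 𝒪 ρbar Smin) (_hc : CurveCase p ρbar) (t : PType)
    (_ht : (t = .flat ∧ (GaloisRepAdic.ofResidualGaloisRep ρbar).IsFlatAt p) ∨
      (t = .sord ∧ (GaloisRepAdic.ofResidualGaloisRep ρbar).IsStrictOrdinaryAt p ∧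
        ¬ (GaloisRepAdic.ofResidualGaloisRep ρbar).IsFlatAt p))
    [NeZero (wilesLevel p t Smin Smin)]
    (P₀ : HeckePkg p 𝒪 ρbar t Smin Smin)
    (χ : CuspForm.heckeAlgebra (wilesLevel p t Smin Smin) 2 (↑Smin : Set ℕ) →+* 𝒪)
    (_hχ : G4.ResFrobCond ρbar ((residue 𝒪).comp χ))
    (_hθ : P₀.θ = (residue 𝒪).comp χ)
    (pt : P₀.T →ₐ[𝒪] 𝒪)
    (_hpt : ∀ x : CuspForm.heckeAlgebra (wilesLevel p t Smin Smin) 2 (↑Smin : Set ℕ),
      pt (CuspForm.heckeLocal.π (wilesLevel p t Smin Smin) (↑Smin : Set ℕ) 𝒪 P₀.θ x) = χ x),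
    ∃ (M₀ : Type) (_ : AddCommGroup M₀) (_ : Module P₀.T M₀) (_ : Nontrivial M₀),
      ((∃ (d : ℕ) (b : Fin d → M₀), Function.Bijective (Fintype.linearCombination P₀.T b)) →
        NC.congIdeal pt = cohCong (wilesLevel p t Smin Smin) Smin (eig χ)) ∧
      ∀ (n r : ℕ) (qv : Fin r → ℕ) (_hq : IsTWSet p ρbar Smin n qv)
        [NeZero (wilesLevel p t Smin (Smin ∪ Finset.univ.image qv))]
        (PQ : HeckePkg p 𝒪 ρbar t Smin (Smin ∪ Finset.univ.image qv))
        (res : PQ.T →ₐ[𝒪] P₀.T) (_hres : IsRestriction P₀ PQ res),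
        ∃ A : AutLevel P₀ M₀ qv PQ res, A.Cmp

end Fermat.Agent.S59.TW
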